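/-
S25, block DICT (helper686): the *section map* of a morphism `α : f^* M ⟶ K`.

For a morphism of schemes `f : X' ⟶ X`, `M : X.Modules`, `K : X'.Modules` and
`α : (pullback f).obj M ⟶ K`, the adjoint morphism `M ⟶ f_* K` gives additive maps
`secMap f α V V' h : Γ(M, V) →+ Γ(K, V')` for all opens `V' ≤ f⁻¹ V`.
For `α = 𝟙` this is the canonical "pullback of sections" map `Γ(M, V) → Γ(f^* M, V')`.

This file: definition and formal properties (naturality, semilinearity, composition of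
morphisms of schemes, open immersions, equal morphisms).
-/
import Mathlib

set_option autoImplicit false

open CategoryTheory AlgebraicGeometry Opposite

universe u

namespace Fermat.Agent.S25.H686

open AlgebraicGeometry.Scheme.Modules

section Basic

variable {X' X : Scheme.{u}} (f : X' ⟶ X) {M M₂ : X.Modules} {K K₂ : X'.Modules}

/-- Restriction of sections, as an additive map. -/
noncomputable def resS {Y : Scheme.{u}} (N : Y.Modules) {U V : Y.Opens} (h : V ≤ U) :
    Γ(N, U) →+ Γ(N, V) :=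
  (N.presheaf.map (homOfLE h).op).hom

lemma resS_resS {Y : Scheme.{u}} (N : Y.Modules) {U V W : Y.Opens} (h : V ≤ U) (h' : W ≤ V)
    (s : Γ(N, U)) : resS N h' (resS N h s) = resS N (h'.trans h) s := by
  unfold resS
  rw [← ConcreteCategory.comp_apply, ← Functor.map_comp]
  rfl

lemma resS_self {Y : Scheme.{u}} (N : Y.Modules) {U : Y.Opens} (h : U ≤ U)
    (s : Γ(N, U)) : resS N h s = s := by
  unfold resS
  have : (homOfLE h).op = 𝟙 (op U) := rfl
  rw [this, N.presheaf.map_id]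
  rfl

lemma resS_smul {Y : Scheme.{u}} (N : Y.Modules) {U V : Y.Opens} (h : V ≤ U)
    (r : Γ(Y, U)) (s : Γ(N, U)) :
    resS N h (r • s) = Y.presheaf.map (homOfLE h).op r • resS N h s :=
  Scheme.Modules.map_smul N (homOfLE h) r s

lemma app_resS {Y : Scheme.{u}} {N N' : Y.Modules} (β : N ⟶ N') {U V : Y.Opens} (h : V ≤ U)
    (s : Γ(N, U)) : β.app V (resS N h s) = resS N' h (β.app U s) :=
  congr($(β.mapPresheaf.naturality (homOfLE h).op) s)

/-- The adjoint `M ⟶ f_* K` of `α : f^* M ⟶ K`. -/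
noncomputable def adjHom (α : (pullback f).obj M ⟶ K) : M ⟶ (pushforward f).obj K :=
  (pullbackPushforwardAdjunction f).homEquiv M K α

lemma adjHom_comp (α : (pullback f).obj M ⟶ K) (β : K ⟶ K₂) :
    adjHom f (α ≫ β) = adjHom f α ≫ (pushforward f).map β :=
  (pullbackPushforwardAdjunction f).homEquiv_naturality_right α β

lemma adjHom_map_comp (γ : M₂ ⟶ M) (α : (pullback f).obj M ⟶ K) :
    adjHom f ((pullback f).map γ ≫ α) = γ ≫ adjHom f α :=
  (pullbackPushforwardAdjunction f).homEquiv_naturality_left γ α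

lemma adjHom_id (M : X.Modules) :
    adjHom f (𝟙 ((pullback f).obj M)) = (pullbackPushforwardAdjunction f).unit.app M :=
  (pullbackPushforwardAdjunction f).homEquiv_id M

/-- Sections of a morphism `ψ : M ⟶ f_* K` over `V`, with values in `Γ(K, f⁻¹ V)`. -/
noncomputable def pushApp (ψ : M ⟶ (pushforward f).obj K) (V : X.Opens) :
    Γ(M, V) →+ Γ(K, f ⁻¹ᵁ V) :=
  (ψ.app V).hom

lemma pushApp_smul (ψ : M ⟶ (pushforward f).obj K) (V : X.Opens) (r : Γ(X, V))
    (s : Γ(M, V)) : pushApp f ψ V (r • s) = f.app V r • pushApp f ψ V s := by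
  change ψ.app V (r • s) = _
  rw [Hom.app_smul]
  rfl

lemma pushApp_res (ψ : M ⟶ (pushforward f).obj K) {V W : X.Opens} (hW : W ≤ V)
    (s : Γ(M, V)) :
    pushApp f ψ W (resS M hW s) = resS K (f.preimage_mono hW) (pushApp f ψ V s) :=
  congr($(ψ.mapPresheaf.naturality (homOfLE hW).op) s)

lemma pushApp_comp_map (ψ : M ⟶ (pushforward f).obj K) (β : K ⟶ K₂) (V : X.Opens)
    (s : Γ(M, V)) :
    pushApp f (ψ ≫ (pushforward f).map β) V s = β.app (f ⁻¹ᵁ V) (pushApp f ψ V s) := rfl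

lemma pushApp_comp (γ : M₂ ⟶ M) (ψ : M ⟶ (pushforward f).obj K) (V : X.Opens)
    (s : Γ(M₂, V)) :
    pushApp f (γ ≫ ψ) V s = pushApp f ψ V (γ.app V s) := rfl

/-- The section map `Γ(M, V) → Γ(K, V')` induced by `α : f^* M ⟶ K`, for `V' ≤ f⁻¹ V`. -/
noncomputable def secMap (α : (pullback f).obj M ⟶ K) (V : X.Opens) (V' : X'.Opens)
    (h : V' ≤ f ⁻¹ᵁ V) : Γ(M, V) →+ Γ(K, V') :=
  (resS K h).comp (pushApp f (adjHom f α) V)

lemma secMap_apply (α : (pullback f).obj M ⟶ K) (V : X.Opens) (V' : X'.Opens)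
    (h : V' ≤ f ⁻¹ᵁ V) (s : Γ(M, V)) :
    secMap f α V V' h s = resS K h (pushApp f (adjHom f α) V s) := rfl

/-- Post-composition. -/
lemma secMap_comp (α : (pullback f).obj M ⟶ K) (β : K ⟶ K₂) (V : X.Opens) (V' : X'.Opens)
    (h : V' ≤ f ⁻¹ᵁ V) (s : Γ(M, V)) :
    secMap f (α ≫ β) V V' h s = β.app V' (secMap f α V V' h s) := by
  rw [secMap_apply, secMap_apply, adjHom_comp, pushApp_comp_map, app_resS]

/-- Pre-composition. -/
lemma secMap_map_comp (γ : M₂ ⟶ M) (α : (pullback f).obj M ⟶ K) (V : X.Opens) (V' : X'.Opens)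
    (h : V' ≤ f ⁻¹ᵁ V) (s : Γ(M₂, V)) :
    secMap f ((pullback f).map γ ≫ α) V V' h s = secMap f α V V' h (γ.app V s) := by
  rw [secMap_apply, secMap_apply, adjHom_map_comp, pushApp_comp]

/-- Semilinearity. -/
lemma secMap_smul (α : (pullback f).obj M ⟶ K) (V : X.Opens) (V' : X'.Opens)
    (h : V' ≤ f ⁻¹ᵁ V) (r : Γ(X, V)) (s : Γ(M, V)) :
    secMap f α V V' h (r • s) = f.appLE V V' h r • secMap f α V V' h s := by
  rw [secMap_apply, secMap_apply, pushApp_smul, resS_smul]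
  rfl

/-- Naturality in the opens. -/
lemma secMap_res (α : (pullback f).obj M ⟶ K) {V W : X.Opens} {V' W' : X'.Opens}
    (h : V' ≤ f ⁻¹ᵁ V) (h₂ : W' ≤ f ⁻¹ᵁ W) (hW : W ≤ V) (hW' : W' ≤ V') (s : Γ(M, V)) :
    secMap f α W W' h₂ (resS M hW s) = resS K hW' (secMap f α V V' h s) := by
  rw [secMap_apply, secMap_apply, pushApp_res, resS_resS, resS_resS]

end Basic

end Fermat.Agent.S25.H686
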