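/-
S25, block DICT (helper686): formal properties of the section map `secMap`
with respect to composition of morphisms, open immersions and equal morphisms.
-/
import Fermat.Agent.S25.H686.UnitSec

set_option autoImplicit false

open CategoryTheory AlgebraicGeometry Opposite

universe u

namespace Fermat.Agent.S25.H686

open AlgebraicGeometry.Scheme.Modules

section Comp

variable {X₁ X₂ X₃ : Scheme.{u}} (f₁ : X₁ ⟶ X₂) (f₂ : X₂ ⟶ X₃)
  {M : X₃.Modules} {K₂ : X₂.Modules} {K₁ : X₁.Modules}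

/-- The composite `(f₁ ≫ f₂)^* M ⟶ f₁^* f₂^* M ⟶ f₁^* K₂ ⟶ K₁`. -/
noncomputable def compHom (α₂ : (pullback f₂).obj M ⟶ K₂) (α₁ : (pullback f₁).obj K₂ ⟶ K₁) :
    (pullback (f₁ ≫ f₂)).obj M ⟶ K₁ :=
  (pullbackComp f₁ f₂).inv.app M ≫ (pullback f₁).map α₂ ≫ α₁

lemma adjHom_pullbackComp_inv (M : X₃.Modules) :
    adjHom (f₁ ≫ f₂) ((pullbackComp f₁ f₂).inv.app M) =
      (pullbackPushforwardAdjunction f₂).unit.app M ≫
        (pushforward f₂).map ((pullbackPushforwardAdjunction f₁).unit.app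
          ((pullback f₂).obj M)) ≫
        (pushforwardComp f₁ f₂).hom.app ((pullback f₁).obj ((pullback f₂).obj M)) := by
  have h := unit_conjugateEquiv
    ((pullbackPushforwardAdjunction f₂).comp (pullbackPushforwardAdjunction f₁))
    (pullbackPushforwardAdjunction (f₁ ≫ f₂)) (pullbackComp f₁ f₂).inv M
  rw [conjugateEquiv_pullbackComp_inv] at h
  rw [adjHom, Adjunction.homEquiv_unit, ← h, Adjunction.comp_unit_app]
  simp only [Functor.comp_obj, Category.assoc]

lemma adjHom_compHom (α₂ : (pullback f₂).obj M ⟶ K₂) (α₁ : (pullback f₁).obj K₂ ⟶ K₁) :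
    adjHom (f₁ ≫ f₂) (compHom f₁ f₂ α₂ α₁) =
      adjHom f₂ α₂ ≫ (pushforward f₂).map (adjHom f₁ α₁) ≫
        (pushforwardComp f₁ f₂).hom.app K₁ := by
  rw [compHom, adjHom_comp, adjHom_pullbackComp_inv]
  have n1 := (pushforwardComp f₁ f₂).hom.naturality ((pullback f₁).map α₂ ≫ α₁)
  simp only [Functor.comp_map] at n1
  have n2 := (pullbackPushforwardAdjunction f₁).unit.naturality α₂
  simp only [Functor.id_map, Functor.comp_map] at n2
  simp only [Category.assoc]
  rw [← n1]
  simp only [adjHom, Adjunction.homEquiv_unit, CategoryTheory.Functor.map_comp, Category.assoc]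
  congr 1
  simp only [← Category.assoc]
  congr 2
  rw [← CategoryTheory.Functor.map_comp, ← CategoryTheory.Functor.map_comp, n2]

/-- **Composition**: the section map of a composite is the composite of the section maps. -/
lemma pushApp_compHom (α₂ : (pullback f₂).obj M ⟶ K₂) (α₁ : (pullback f₁).obj K₂ ⟶ K₁)
    (V : X₃.Opens) (s : Γ(M, V)) :
    pushApp (f₁ ≫ f₂) (adjHom (f₁ ≫ f₂) (compHom f₁ f₂ α₂ α₁)) V s =
      pushApp f₁ (adjHom f₁ α₁) (f₂ ⁻¹ᵁ V) (pushApp f₂ (adjHom f₂ α₂) V s) := by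
  rw [adjHom_compHom]
  rfl

/-- **Composition**, `secMap` form with an arbitrary intermediate open. -/
lemma secMap_compHom (α₂ : (pullback f₂).obj M ⟶ K₂) (α₁ : (pullback f₁).obj K₂ ⟶ K₁)
    (V : X₃.Opens) (V₂ : X₂.Opens) (V₁ : X₁.Opens) (h₂ : V₂ ≤ f₂ ⁻¹ᵁ V) (h₁ : V₁ ≤ f₁ ⁻¹ᵁ V₂)
    (s : Γ(M, V)) :
    secMap (f₁ ≫ f₂) (compHom f₁ f₂ α₂ α₁) V V₁ (h₁.trans (f₁.preimage_mono h₂)) s =
      secMap f₁ α₁ V₂ V₁ h₁ (secMap f₂ α₂ V V₂ h₂ s) := by
  rw [secMap_apply f₂, secMap_res f₁ α₁ (V := f₂ ⁻¹ᵁ V) (V' := f₁ ⁻¹ᵁ (f₂ ⁻¹ᵁ V)) le_rfl h₁ h₂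
    (h₁.trans (f₁.preimage_mono h₂)), secMap_apply, secMap_apply, resS_self, pushApp_compHom]
  rfl

end Comp

section OpenImmersion

variable {Y X : Scheme.{u}} (j : Y ⟶ X) [IsOpenImmersion j] (M : X.Modules)

/-- The comparison `j^* M ⟶ M|_Y` for an open immersion `j`. -/
noncomputable def restrHom : (pullback j).obj M ⟶ (restrictFunctor j).obj M :=
  (restrictFunctorIsoPullback j).inv.app M

instance : IsIso (restrHom j M) := by unfold restrHom; infer_instance

lemma adjHom_restrHom :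
    adjHom j (restrHom j M) = (restrictAdjunction j).unit.app M := by
  have h := Adjunction.unit_leftAdjointUniq_hom_app (restrictAdjunction j)
    (pullbackPushforwardAdjunction j) M
  rw [adjHom, Adjunction.homEquiv_unit, ← h, restrHom, Category.assoc, ← Functor.map_comp]
  have : ((restrictAdjunction j).leftAdjointUniq (pullbackPushforwardAdjunction j)).hom.app M ≫
      (restrictFunctorIsoPullback j).inv.app M = 𝟙 _ :=
    (restrictFunctorIsoPullback j).hom_inv_id_app M
  rw [this, CategoryTheory.Functor.map_id]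
  exact Category.comp_id _

/-- **Open immersions**: the section map of `j^* M ⟶ M|_Y` is the restriction map. -/
lemma pushApp_restrHom (V : X.Opens) (s : Γ(M, V)) :
    pushApp j (adjHom j (restrHom j M)) V s = resS M (j.image_preimage_le V) s := by
  rw [adjHom_restrHom]
  rfl

/-- **Open immersions**, `secMap` form. -/
lemma secMap_restrHom (V : X.Opens) (W : Y.Opens) (h : W ≤ j ⁻¹ᵁ V) (s : Γ(M, V)) :
    secMap j (restrHom j M) V W h s =
      resS M ((j.image_mono h).trans (j.image_preimage_le V)) s := by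
  rw [secMap_apply, pushApp_restrHom]
  exact resS_resS M (j.image_preimage_le V) (j.image_mono h) s

end OpenImmersion

section Congr

variable {X' X : Scheme.{u}} {M : X.Modules} {K : X'.Modules}

/-- **Equal morphisms**. -/
lemma secMap_congr {h h' : X' ⟶ X} (e : h = h') (α : (pullback h').obj M ⟶ K)
    (V : X.Opens) (V' : X'.Opens) (hle : V' ≤ h ⁻¹ᵁ V) (s : Γ(M, V)) :
    secMap h ((pullbackCongr e).hom.app M ≫ α) V V' hle s =
      secMap h' α V V' (e ▸ hle) s := by
  subst e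
  simp [pullbackCongr]

end Congr

end Fermat.Agent.S25.H686
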