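/-
S25, block DICT (helper686): base change of global sections on affine schemes.

For `φ : R ⟶ S` and a quasi-coherent module `P` on `Spec R`, the canonical map
`S ⊗[R] Γ(P) ⟶ Γ((Spec φ)^* P)` (the mate of the unit `P ⟶ g_* g^* P`) is an isomorphism.
-/
import Fermat.Agent.S25.H686.UnitSecFormal

set_option autoImplicit false

open CategoryTheory AlgebraicGeometry Opposite

universe u

namespace Fermat.Agent.S25.H686

open AlgebraicGeometry.Scheme.Modules

variable {R S : CommRingCat.{u}} (φ : R ⟶ S)

/-- Global sections of a pushforward along `Spec.map φ` are the restriction of scalars of the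
global sections. -/
noncomputable def pushΓIso :
    Scheme.Modules.pushforward (Spec.map φ) ⋙ moduleSpecΓFunctor (R := R) ≅
      moduleSpecΓFunctor (R := S) ⋙ ModuleCat.restrictScalars φ.hom :=
  (Functor.associator _ _ _).symm ≪≫
  Functor.isoWhiskerRight (pushforwardCompModulesSpecToSheafIso φ)
    (TopCat.Sheaf.forget _ _ ⋙ (evaluation _ _).obj (.op ⊤)) ≪≫
  NatIso.ofComponents (fun M => Iso.refl _) (by
    intro M N f
    simp only [Iso.refl_hom]
    rfl)

/-- The adjunction `tilde ⋙ pullback ⊣ pushforward ⋙ Γ`. -/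
noncomputable def adjOne : tilde.functor R ⋙ Scheme.Modules.pullback (Spec.map φ) ⊣
    Scheme.Modules.pushforward (Spec.map φ) ⋙ moduleSpecΓFunctor (R := R) :=
  (tilde.adjunction (R := R)).comp (Scheme.Modules.pullbackPushforwardAdjunction (Spec.map φ))

/-- The adjunction `extendScalars ⋙ tilde ⊣ pushforward ⋙ Γ`. -/
noncomputable def adjTwo : ModuleCat.extendScalars φ.hom ⋙ tilde.functor S ⊣
    Scheme.Modules.pushforward (Spec.map φ) ⋙ moduleSpecΓFunctor (R := R) :=
  ((ModuleCat.extendRestrictScalarsAdj φ.hom).comp (tilde.adjunction (R := S))).ofNatIsoRight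
      (pushΓIso φ).symm

/-- `(Spec φ)^* (tilde N) ≅ tilde (S ⊗[R] N)`, by uniqueness of left adjoints. -/
noncomputable def tildePullIso :
    tilde.functor R ⋙ Scheme.Modules.pullback (Spec.map φ) ≅
      ModuleCat.extendScalars φ.hom ⋙ tilde.functor S :=
  Adjunction.leftAdjointUniq (adjOne φ) (adjTwo φ)

lemma adjOne_unit_comp (N : ModuleCat.{u} R) :
    (adjOne φ).unit.app N ≫
      (Scheme.Modules.pushforward (Spec.map φ) ⋙ moduleSpecΓFunctor (R := R)).map
        ((tildePullIso φ).hom.app N) = (adjTwo φ).unit.app N :=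
  Adjunction.unit_leftAdjointUniq_hom_app _ _ N

/-- The canonical morphism `Γ(P) ⟶ Γ(g^* P)` of `R`-modules (`g = Spec φ`). -/
noncomputable def bMor (P : (Spec R).Modules) :
    moduleSpecΓFunctor.obj P ⟶
      (ModuleCat.restrictScalars φ.hom).obj
        (moduleSpecΓFunctor.obj ((Scheme.Modules.pullback (Spec.map φ)).obj P)) :=
  moduleSpecΓFunctor.map ((Scheme.Modules.pullbackPushforwardAdjunction (Spec.map φ)).unit.app P) ≫
    (pushΓIso φ).hom.app ((Scheme.Modules.pullback (Spec.map φ)).obj P)

lemma bMor_naturality {P₁ P₂ : (Spec R).Modules} (γ : P₁ ⟶ P₂) :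
    moduleSpecΓFunctor.map γ ≫ bMor φ P₂ =
      bMor φ P₁ ≫ (ModuleCat.restrictScalars φ.hom).map
        (moduleSpecΓFunctor.map ((Scheme.Modules.pullback (Spec.map φ)).map γ)) := by
  unfold bMor
  have n1 := (Scheme.Modules.pullbackPushforwardAdjunction (Spec.map φ)).unit.naturality γ
  have n2 := (pushΓIso φ).hom.naturality ((Scheme.Modules.pullback (Spec.map φ)).map γ)
  simp only [Functor.id_obj, Functor.comp_obj, Functor.id_map, Functor.comp_map] at n1 n2
  rw [← Category.assoc, ← CategoryTheory.Functor.map_comp, n1,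
    CategoryTheory.Functor.map_comp, Category.assoc, Category.assoc, ← n2]

/-- The mate `S ⊗[R] Γ(P) ⟶ Γ(g^* P)`. -/
noncomputable def bSharp (P : (Spec R).Modules) :
    (ModuleCat.extendScalars φ.hom).obj (moduleSpecΓFunctor.obj P) ⟶
      moduleSpecΓFunctor.obj ((Scheme.Modules.pullback (Spec.map φ)).obj P) :=
  ((ModuleCat.extendRestrictScalarsAdj φ.hom).homEquiv _ _).symm (bMor φ P)

lemma homEquiv_bSharp (P : (Spec R).Modules) :
    (ModuleCat.extendRestrictScalarsAdj φ.hom).homEquiv _ _ (bSharp φ P) = bMor φ P :=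
  Equiv.apply_symm_apply _ _

lemma bSharp_naturality {P₁ P₂ : (Spec R).Modules} (γ : P₁ ⟶ P₂) :
    (ModuleCat.extendScalars φ.hom).map (moduleSpecΓFunctor.map γ) ≫ bSharp φ P₂ =
      bSharp φ P₁ ≫ moduleSpecΓFunctor.map ((Scheme.Modules.pullback (Spec.map φ)).map γ) := by
  apply ((ModuleCat.extendRestrictScalarsAdj φ.hom).homEquiv _ _).injective
  rw [Adjunction.homEquiv_naturality_left, Adjunction.homEquiv_naturality_right,
    homEquiv_bSharp, homEquiv_bSharp, bMor_naturality]

/-- Key identity for `P = tilde N`. -/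
lemma bSharp_tilde (N : ModuleCat.{u} R) :
    (ModuleCat.extendScalars φ.hom).map ((tilde.adjunction (R := R)).unit.app N) ≫
        bSharp φ ((tilde.functor R).obj N) ≫
          moduleSpecΓFunctor.map ((tildePullIso φ).hom.app N) =
      (tilde.adjunction (R := S)).unit.app ((ModuleCat.extendScalars φ.hom).obj N) := by
  apply ((ModuleCat.extendRestrictScalarsAdj φ.hom).homEquiv _ _).injective
  rw [Adjunction.homEquiv_naturality_left, Adjunction.homEquiv_naturality_right]
  have key := homEquiv_bSharp φ ((tilde.functor R).obj N)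
  simp only [Functor.comp_obj, Functor.id_obj] at key ⊢
  rw [key]
  have h := adjOne_unit_comp φ N
  have n2 := (pushΓIso φ).hom.naturality ((tildePullIso φ).hom.app N)
  simp only [Functor.comp_obj, Functor.comp_map] at n2
  unfold bMor
  simp only [Category.assoc]
  rw [← n2]
  have h2 : (adjTwo φ).unit.app N =
      (ModuleCat.extendRestrictScalarsAdj φ.hom).unit.app N ≫
        (ModuleCat.restrictScalars φ.hom).map
          ((tilde.adjunction (R := S)).unit.app ((ModuleCat.extendScalars φ.hom).obj N)) ≫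
        (pushΓIso φ).inv.app _ := by
    simp [adjTwo, Adjunction.ofNatIsoRight, Adjunction.comp_unit_app]
  rw [h2] at h
  simp only [adjOne, Adjunction.comp_unit_app, Functor.comp_obj, Functor.comp_map,
    Category.assoc] at h
  rw [Adjunction.homEquiv_unit]
  have h3 := congrArg (· ≫ (pushΓIso φ).hom.app
    ((tilde.functor S).obj ((ModuleCat.extendScalars φ.hom).obj N))) h
  simp only [Category.assoc, Iso.inv_hom_id_app, Functor.comp_obj] at h3
  rw [h3]
  erw [Category.comp_id]

instance isIso_bSharp_tilde (N : ModuleCat.{u} R) :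
    IsIso (bSharp φ ((tilde.functor R).obj N)) := by
  have h := bSharp_tilde φ N
  have h1 : IsIso ((ModuleCat.extendScalars φ.hom).map
      ((tilde.adjunction (R := R)).unit.app N)) := inferInstance
  have h2 : IsIso (moduleSpecΓFunctor.map ((tildePullIso φ).hom.app N)) := inferInstance
  have h3 : IsIso ((tilde.adjunction (R := S)).unit.app
      ((ModuleCat.extendScalars φ.hom).obj N)) := inferInstance
  rw [← h] at h3
  have h4 : IsIso (bSharp φ ((tilde.functor R).obj N) ≫
      moduleSpecΓFunctor.map ((tildePullIso φ).hom.app N)) :=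
    IsIso.of_isIso_comp_left ((ModuleCat.extendScalars φ.hom).map
      ((tilde.adjunction (R := R)).unit.app N)) _
  exact IsIso.of_isIso_comp_right _ (moduleSpecΓFunctor.map ((tildePullIso φ).hom.app N))

/-- **Affine base change**: for quasi-coherent `P` on `Spec R`, the canonical map
`S ⊗[R] Γ(P) ⟶ Γ((Spec φ)^* P)` is an isomorphism. -/
theorem isIso_bSharp (P : (Spec R).Modules) [IsIso P.fromTildeΓ] : IsIso (bSharp φ P) := by
  have n := bSharp_naturality φ P.fromTildeΓ
  have h1 : IsIso (bSharp φ (tilde ((modulesSpecToSheaf.obj P).presheaf.obj (op ⊤)))) :=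
    isIso_bSharp_tilde φ _
  have h2 : IsIso ((ModuleCat.extendScalars φ.hom).map
      (moduleSpecΓFunctor.map P.fromTildeΓ)) := inferInstance
  have h3 : IsIso (moduleSpecΓFunctor.map
      ((Scheme.Modules.pullback (Spec.map φ)).map P.fromTildeΓ)) := inferInstance
  have h4 : IsIso ((ModuleCat.extendScalars φ.hom).map
      (moduleSpecΓFunctor.map P.fromTildeΓ) ≫ bSharp φ P) := by
    rw [n]; infer_instance
  exact IsIso.of_isIso_comp_left ((ModuleCat.extendScalars φ.hom).map
      (moduleSpecΓFunctor.map P.fromTildeΓ)) _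

end Fermat.Agent.S25.H686
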