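/-
S25, block DICT (helper686): semilinear base change maps, in universal-property form.
Pure algebra (Mathlib only).

`IsSemiBC ρ b` : the additive map `b : N →+ N'` is `ρ`-semilinear (`ρ : R →+* R'`) and
every `ρ`-semilinear additive map `N →+ Q` into an `R'`-module factors uniquely through `b`
by an `R'`-linear map.  Equivalent to Mathlib's `IsBaseChange` (for `Algebra R R'`), but
free of instance arguments, hence easy to transport along isomorphisms.
-/
import Mathlib

set_option autoImplicit false

universe u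

namespace Fermat.Agent.S25.H686

/-- Universal property of a semilinear base change map. -/
structure IsSemiBC {R R' : Type u} [CommRing R] [CommRing R'] (ρ : R →+* R')
    {N N' : Type u} [AddCommGroup N] [Module R N] [AddCommGroup N'] [Module R' N']
    (b : N →+ N') : Prop where
  map_smul : ∀ (r : R) (n : N), b (r • n) = ρ r • b n
  existsUnique_lift : ∀ (Q : Type u) [AddCommGroup Q] [Module R' Q] (h : N →+ Q),
    (∀ (r : R) (n : N), h (r • n) = ρ r • h n) →
      ∃! h' : N' →ₗ[R'] Q, ∀ n, h' (b n) = h n

section Convert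

variable {R R' : Type u} [CommRing R] [CommRing R'] [Algebra R R']
  {N N' : Type u} [AddCommGroup N] [Module R N] [AddCommGroup N'] [Module R' N']
  [Module R N'] [IsScalarTower R R' N']

/-- Mathlib's `IsBaseChange` implies `IsSemiBC`. -/
theorem isSemiBC_of_isBaseChange {f : N →ₗ[R] N'} (hf : IsBaseChange R' f) :
    IsSemiBC (algebraMap R R') f.toAddMonoidHom where
  map_smul r n := by
    change f (r • n) = _
    rw [f.map_smul, algebraMap_smul]
    rfl
  existsUnique_lift Q _ _ h hh := by
    let _ : Module R Q := Module.compHom Q (algebraMap R R')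
    have : IsScalarTower R R' Q :=
      ⟨fun r r' q => by
        change (r • r') • q = algebraMap R R' r • (r' • q)
        rw [Algebra.smul_def, mul_smul]⟩
    let hlin : N →ₗ[R] Q :=
      { toFun := h
        map_add' := h.map_add
        map_smul' := fun r n => hh r n }
    refine ⟨hf.lift hlin, fun n => hf.lift_eq hlin n, ?_⟩
    intro g hg
    apply hf.algHom_ext'
    ext n
    change g (f n) = hf.lift hlin (f n)
    rw [hf.lift_eq hlin n]
    exact hg n

/-- `IsSemiBC` implies Mathlib's `IsBaseChange`. -/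
theorem isBaseChange_of_isSemiBC {f : N →ₗ[R] N'}
    (hf : IsSemiBC (algebraMap R R') f.toAddMonoidHom) : IsBaseChange R' f := by
  apply IsBaseChange.of_lift_unique
  intro Q _ _ _ _ g
  let _ : AddCommGroup Q := Module.addCommMonoidToAddCommGroup R'
  obtain ⟨h', h1, h2⟩ := hf.existsUnique_lift Q g.toAddMonoidHom (fun r n => by
    change g (r • n) = _
    rw [g.map_smul, algebraMap_smul]
    rfl)
  refine ⟨h', ?_, ?_⟩
  · ext n
    exact h1 n
  · intro g' hg'
    apply h2
    intro n
    exact congr($hg' n)

end Convert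

section Transport

variable {R R' R₁ R₁' : Type u} [CommRing R] [CommRing R'] [CommRing R₁] [CommRing R₁']
  {ρ : R →+* R'} {ρ₁ : R₁ →+* R₁'}
  {N N' N₁ N₁' : Type u} [AddCommGroup N] [Module R N] [AddCommGroup N'] [Module R' N']
  [AddCommGroup N₁] [Module R₁ N₁] [AddCommGroup N₁'] [Module R₁' N₁']

/-- Transport of `IsSemiBC` along semilinear isomorphisms. -/
theorem IsSemiBC.transport {b₁ : N₁ →+ N₁'} (hb₁ : IsSemiBC ρ₁ b₁) {b : N →+ N'}
    (σ : R ≃+* R₁) (σ' : R' ≃+* R₁') (hσ : ∀ r, σ' (ρ r) = ρ₁ (σ r))
    (a : N ≃+ N₁) (a' : N' ≃+ N₁')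
    (ha : ∀ (r : R) (n : N), a (r • n) = σ r • a n)
    (ha' : ∀ (r : R') (n : N'), a' (r • n) = σ' r • a' n)
    (hsq : ∀ n, a' (b n) = b₁ (a n)) : IsSemiBC ρ b where
  map_smul r n := by
    apply a'.injective
    rw [hsq, ha, hb₁.map_smul, ha', hsq, hσ]
  existsUnique_lift Q _ _ h hh := by
    let _ : Module R₁' Q := Module.compHom Q σ'.symm.toRingHom
    have smul_def : ∀ (r : R₁') (q : Q), r • q = σ'.symm r • q := fun _ _ => rfl
    have hsymm : ∀ (r : R₁) (n : N₁), a.symm (r • n) = σ.symm r • a.symm n := by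
      intro r n
      apply a.injective
      rw [ha]
      simp
    obtain ⟨g, hg1, hg2⟩ := hb₁.existsUnique_lift Q (h.comp a.symm.toAddMonoidHom) (by
      intro r n
      change h (a.symm (r • n)) = ρ₁ r • h (a.symm n)
      rw [hsymm, hh, smul_def]
      congr 1
      apply σ'.injective
      rw [hσ]
      simp)
    let g' : N' →ₗ[R'] Q :=
      { toFun := fun n => g (a' n)
        map_add' := fun x y => by rw [map_add, map_add]
        map_smul' := fun r n => by
          rw [ha', g.map_smul, smul_def]
          simp }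
    refine ⟨g', ?_, ?_⟩
    · intro n
      change g (a' (b n)) = h n
      rw [hsq, hg1]
      change h (a.symm (a n)) = h n
      simp
    · intro g'' hg''
      let g₁ : N₁' →ₗ[R₁'] Q :=
        { toFun := fun n => g'' (a'.symm n)
          map_add' := fun x y => by rw [map_add, map_add]
          map_smul' := fun r n => by
            have : a'.symm (r • n) = σ'.symm r • a'.symm n := by
              apply a'.injective
              rw [ha']
              simp
            rw [this, g''.map_smul]
            rfl }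
      have := hg2 g₁ (by
        intro n
        change g'' (a'.symm (b₁ n)) = h (a.symm n)
        rw [← hg'' (a.symm n)]
        congr 1
        apply a'.injective
        rw [hsq]
        simp)
      ext n
      change g'' n = g (a' n)
      rw [← this]
      change g'' n = g'' (a'.symm (a' n))
      simp

/-- Post-composition with a linear equivalence preserves `IsSemiBC`. -/
theorem IsSemiBC.comp_linearEquiv {b : N →+ N'} (hb : IsSemiBC ρ b) {N'' : Type u}
    [AddCommGroup N''] [Module R' N''] (e : N' ≃ₗ[R'] N'') :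
    IsSemiBC ρ (e.toLinearMap.toAddMonoidHom.comp b) := by
  refine IsSemiBC.transport (b := e.toLinearMap.toAddMonoidHom.comp b) hb (RingEquiv.refl R)
    (RingEquiv.refl R') (fun _ => rfl) (AddEquiv.refl N) e.symm.toAddEquiv (fun _ _ => rfl)
    (fun r n => by
      change e.symm (r • n) = r • e.symm n
      rw [e.symm.map_smul]) (fun n => ?_)
  change e.symm (e (b n)) = b n
  simp

end Transport

section Unique

variable {R R' : Type u} [CommRing R] [CommRing R'] {ρ : R →+* R'}
  {N N' N₂' : Type u} [AddCommGroup N] [Module R N] [AddCommGroup N'] [Module R' N']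
  [AddCommGroup N₂'] [Module R' N₂']

/-- Two base changes of the same module along the same ring map are uniquely isomorphic. -/
theorem IsSemiBC.exists_linearEquiv {b : N →+ N'} (hb : IsSemiBC ρ b) {b₂ : N →+ N₂'}
    (hb₂ : IsSemiBC ρ b₂) : ∃ e : N' ≃ₗ[R'] N₂', ∀ n, e (b n) = b₂ n := by
  obtain ⟨g, hg1, -⟩ := hb.existsUnique_lift N₂' b₂ hb₂.map_smul
  obtain ⟨g₂, hg2, -⟩ := hb₂.existsUnique_lift N' b hb.map_smul
  obtain ⟨i, -, hi⟩ := hb.existsUnique_lift N' b hb.map_smul
  obtain ⟨i₂, -, hi₂⟩ := hb₂.existsUnique_lift N₂' b₂ hb₂.map_smul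
  have h1 : g₂.comp g = LinearMap.id := by
    rw [hi (g₂.comp g) (fun n => by simp [hg1, hg2]), hi LinearMap.id (fun n => rfl)]
  have h2 : g.comp g₂ = LinearMap.id := by
    rw [hi₂ (g.comp g₂) (fun n => by simp [hg1, hg2]), hi₂ LinearMap.id (fun n => rfl)]
  exact ⟨LinearEquiv.ofLinearMap g g₂ h2 h1, hg1⟩

/-- The image of a base change map spans. -/
theorem IsSemiBC.ext_of_comp {b : N →+ N'} (hb : IsSemiBC ρ b) {Q : Type u} [AddCommGroup Q]
    [Module R' Q] {g₁ g₂ : N' →ₗ[R'] Q} (h : ∀ n, g₁ (b n) = g₂ (b n)) : g₁ = g₂ := by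
  obtain ⟨i, -, hi⟩ := hb.existsUnique_lift Q (g₁.toAddMonoidHom.comp b) (fun r n => by
    change g₁ (b (r • n)) = ρ r • g₁ (b n)
    rw [hb.map_smul, g₁.map_smul])
  rw [hi g₁ (fun n => rfl), hi g₂ (fun n => (h n).symm)]

end Unique

end Fermat.Agent.S25.H686
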