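/-
S25, block DICT (helper686): affine base change in `IsSemiBC` form.

For `φ : R ⟶ S`, `g = Spec.map φ` and `P` quasi-coherent on `Spec R`, the unit map
`Γ(P, ⊤) → Γ(g^* P, ⊤)` is a semilinear base change along `g.appLE ⊤ ⊤ : Γ(Spec R, ⊤) → Γ(Spec S, ⊤)`.
-/
import Fermat.Agent.S25.H686.AffineBC
import Fermat.Agent.S25.H686.SemiBC

set_option autoImplicit false

open CategoryTheory AlgebraicGeometry Opposite

universe u

namespace Fermat.Agent.S25.H686

open AlgebraicGeometry.Scheme.Modules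

variable {R S : CommRingCat.{u}} (φ : R ⟶ S) (P : (Spec R).Modules)

lemma bMor_apply (x : Γ(P, ⊤)) :
    (bMor φ P).hom x =
      pushApp (Spec.map φ) ((pullbackPushforwardAdjunction (Spec.map φ)).unit.app P) ⊤ x := rfl

lemma bSharp_tmul (s : S) (x : Γ(P, ⊤)) :
    (bSharp φ P).hom (s ⊗ₜ x) = s • (bMor φ P).hom x := rfl

/-- The unit section map on global sections of `Spec`. -/
noncomputable abbrev unitTop : Γ(P, ⊤) →+ Γ((Scheme.Modules.pullback (Spec.map φ)).obj P, ⊤) :=
  secMap (Spec.map φ) (𝟙 _) ⊤ ⊤ le_top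

lemma unitTop_apply (x : Γ(P, ⊤)) : unitTop φ P x = (bMor φ P).hom x := by
  rw [bMor_apply]
  change resS _ _ (pushApp _ (adjHom _ (𝟙 _)) ⊤ x) = _
  rw [adjHom_id]
  exact resS_self _ _ _

/-- Affine base change, with respect to the `R`- and `S`-module structures. -/
theorem isSemiBC_unitTop_aux [IsIso P.fromTildeΓ] :
    IsSemiBC φ.hom (unitTop φ P) := by
  have := isIso_bSharp φ P
  let _ : Algebra R S := φ.hom.toAlgebra
  let _ : Module R Γ((Scheme.Modules.pullback (Spec.map φ)).obj P, ⊤) :=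
    Module.compHom _ φ.hom
  have : IsScalarTower R S Γ((Scheme.Modules.pullback (Spec.map φ)).obj P, ⊤) :=
    ⟨fun r s x => by
      change (φ.hom r * s) • x = φ.hom r • (s • x)
      rw [mul_smul]⟩
  let f : Γ(P, ⊤) →ₗ[R] Γ((Scheme.Modules.pullback (Spec.map φ)).obj P, ⊤) :=
    { toFun := unitTop φ P
      map_add' := (unitTop φ P).map_add
      map_smul' := fun r x => by
        rw [unitTop_apply, unitTop_apply]
        exact (bMor φ P).hom.map_smul r x }
  let e : TensorProduct R S Γ(P, ⊤) ≃ₗ[S]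
      Γ((Scheme.Modules.pullback (Spec.map φ)).obj P, ⊤) :=
    (asIso (bSharp φ P)).toLinearEquiv
  have hf : IsBaseChange S f := IsBaseChange.of_equiv e (fun x => by
    change (bSharp φ P).hom ((1 : S) ⊗ₜ x) = unitTop φ P x
    rw [bSharp_tmul, one_smul, unitTop_apply])
  exact isSemiBC_of_isBaseChange hf

/-- The `R`-module structure on sections over `⊤` in terms of `ΓSpecIso`. -/
lemma smul_top_eq {M : (Spec R).Modules} (r : Γ(Spec R, ⊤)) (x : Γ(M, ⊤)) :
    ((Scheme.ΓSpecIso R).hom r : R) • x = r • x := by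
  rw [smul_Spec_def]
  congr 1
  have : ((⊤ : (Spec R).Opens).leTop).op = 𝟙 (op ⊤) := rfl
  rw [this, CategoryTheory.Functor.map_id]
  change (Scheme.ΓSpecIso R).inv ((Scheme.ΓSpecIso R).hom r) = r
  rw [← ConcreteCategory.comp_apply, Iso.hom_inv_id]
  rfl

/-- **Affine base change** (`IsSemiBC` form, structure-sheaf module structures). -/
theorem isSemiBC_unitTop [IsIso P.fromTildeΓ] :
    IsSemiBC ((Spec.map φ).appLE ⊤ ⊤ le_top).hom (unitTop φ P) := by
  refine IsSemiBC.transport (isSemiBC_unitTop_aux φ P)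
    (Scheme.ΓSpecIso R).commRingCatIsoToRingEquiv (Scheme.ΓSpecIso S).commRingCatIsoToRingEquiv
    ?_ (AddEquiv.refl _) (AddEquiv.refl _) ?_ ?_ (fun _ => rfl)
  · intro r
    change (Scheme.ΓSpecIso S).hom ((Spec.map φ).appLE ⊤ ⊤ le_top r) =
      φ ((Scheme.ΓSpecIso R).hom r)
    have h := Scheme.ΓSpecIso_naturality φ
    have h2 : (Spec.map φ).appLE ⊤ ⊤ le_top = (Spec.map φ).appTop :=
      (Scheme.Hom.app_eq_appLE (f := Spec.map φ) (U := ⊤)).symm
    rw [h2]
    exact congr($h r)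
  · intro r n
    exact (smul_top_eq r n).symm
  · intro r n
    exact (smul_top_eq r n).symm

end Fermat.Agent.S25.H686
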