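/-
S25, block DICT (helper686): **BC-CORE**.

For any morphism of schemes `f : X' ⟶ X`, a quasi-coherent module `M` on `X`, affine opens
`V ⊆ X`, `V' ⊆ X'` with `V' ≤ f⁻¹ V`, the canonical map
`Γ(M, V) → Γ(f^* M, V')` is a (semilinear) base change along `f.appLE V V' : Γ(X, V) → Γ(X', V')`.
-/
import Fermat.Agent.S25.H686.AffineSemiBC

set_option autoImplicit false

open CategoryTheory AlgebraicGeometry Opposite

universe u

namespace Fermat.Agent.S25.H686

open AlgebraicGeometry.Scheme.Modules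

section LinearEquivOfIso

variable {Y : Scheme.{u}} {N N' : Y.Modules}

/-- The linear equivalence on sections induced by an isomorphism of modules. -/
noncomputable def appLinearEquiv (β : N ≅ N') (W : Y.Opens) : Γ(N, W) ≃ₗ[Γ(Y, W)] Γ(N', W) where
  toFun := β.hom.app W
  invFun := β.inv.app W
  map_add' x y := map_add _ x y
  map_smul' r x := Hom.app_smul β.hom r x
  left_inv x := by
    change (β.hom.app W ≫ β.inv.app W) x = x
    rw [← Hom.comp_app, Iso.hom_inv_id]
    rfl
  right_inv x := by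
    change (β.inv.app W ≫ β.hom.app W) x = x
    rw [← Hom.comp_app, Iso.inv_hom_id]
    rfl

@[simp] lemma appLinearEquiv_apply (β : N ≅ N') (W : Y.Opens) (x : Γ(N, W)) :
    appLinearEquiv β W x = β.hom.app W x := rfl

/-- Restriction between equal opens, as an additive equivalence. -/
noncomputable def resEquiv (N : Y.Modules) {U V : Y.Opens} (h : V = U) : Γ(N, U) ≃+ Γ(N, V) where
  toFun := resS N h.le
  invFun := resS N h.ge
  left_inv x := by rw [resS_resS, resS_self]
  right_inv x := by rw [resS_resS, resS_self]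
  map_add' x y := map_add _ x y

@[simp] lemma resEquiv_apply (N : Y.Modules) {U V : Y.Opens} (h : V = U) (x : Γ(N, U)) :
    resEquiv N h x = resS N h.le x := rfl

end LinearEquivOfIso

section Core

variable {X' X : Scheme.{u}} (f : X' ⟶ X) (M : X.Modules)
  {V : X.Opens} {V' : X'.Opens} (hV : IsAffineOpen V) (hV' : IsAffineOpen V')
  (hle : V' ≤ f ⁻¹ᵁ V)

/-- The comparison isomorphism `g^* (M|_V) ≅ (f^* M)|_{V'}` where `g = Spec (f.appLE V V')`. -/
noncomputable def coreIso :
    (Scheme.Modules.pullback (Spec.map (f.appLE V V' hle))).obj (M.restrict hV.fromSpec) ≅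
      ((Scheme.Modules.pullback f).obj M).restrict hV'.fromSpec :=
  (Scheme.Modules.pullback (Spec.map (f.appLE V V' hle))).mapIso
      ((restrictFunctorIsoPullback hV.fromSpec).app M) ≪≫
    (pullbackComp (Spec.map (f.appLE V V' hle)) hV.fromSpec).app M ≪≫
    (pullbackCongr (IsAffineOpen.SpecMap_appLE_fromSpec f hV hV' hle)).app M ≪≫
    ((pullbackComp hV'.fromSpec f).app M).symm ≪≫
    ((restrictFunctorIsoPullback hV'.fromSpec).app ((Scheme.Modules.pullback f).obj M)).symm

lemma compHom_coreIso :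
    compHom (Spec.map (f.appLE V V' hle)) hV.fromSpec (restrHom hV.fromSpec M)
        (coreIso f M hV hV' hle).hom =
      (pullbackCongr (IsAffineOpen.SpecMap_appLE_fromSpec f hV hV' hle)).hom.app M ≫
        compHom hV'.fromSpec f (𝟙 ((Scheme.Modules.pullback f).obj M))
          (restrHom hV'.fromSpec ((Scheme.Modules.pullback f).obj M)) := by
  simp only [compHom, coreIso, restrHom, Iso.trans_hom, Functor.mapIso_hom, Iso.app_hom,
    Iso.symm_hom, Iso.app_inv, CategoryTheory.Functor.map_id]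
  rw [← Category.assoc ((Scheme.Modules.pullback (Spec.map (f.appLE V V' hle))).map _),
    ← CategoryTheory.Functor.map_comp, Iso.inv_hom_id_app, CategoryTheory.Functor.map_id,
    Category.id_comp, Iso.inv_hom_id_app_assoc]
  erw [Category.id_comp]

lemma top_le_fromSpec_preimage {Y : Scheme.{u}} {W : Y.Opens} (hW : IsAffineOpen W) :
    (⊤ : (Spec Γ(Y, W)).Opens) ≤ hW.fromSpec ⁻¹ᵁ W :=
  hW.fromSpec_preimage_self.ge

lemma fromSpec_image_top {Y : Scheme.{u}} {W : Y.Opens} (hW : IsAffineOpen W) :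
    hW.fromSpec ''ᵁ ⊤ = W := by
  rw [Scheme.Hom.image_top_eq_opensRange, hW.opensRange_fromSpec]

/-- The identification `Γ(N, W) ≃ Γ(N|_W, ⊤)` for an affine open `W`. -/
noncomputable def toRestrTop {Y : Scheme.{u}} (N : Y.Modules) {W : Y.Opens}
    (hW : IsAffineOpen W) : Γ(N, W) ≃+ Γ(N.restrict hW.fromSpec, ⊤) :=
  resEquiv N (fromSpec_image_top hW)

lemma toRestrTop_apply {Y : Scheme.{u}} (N : Y.Modules) {W : Y.Opens}
    (hW : IsAffineOpen W) (s : Γ(N, W)) :
    toRestrTop N hW s = secMap hW.fromSpec (restrHom hW.fromSpec N) W ⊤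
      (top_le_fromSpec_preimage hW) s := by
  rw [secMap_restrHom]
  rfl

/-- The square relating the unit maps of `f` and of `g = Spec (f.appLE V V')`. -/
lemma secMap_coreIso_square (s : Γ(M, V)) :
    secMap (Spec.map (f.appLE V V' hle)) (coreIso f M hV hV' hle).hom ⊤ ⊤ le_top
        (toRestrTop M hV s) =
      toRestrTop ((Scheme.Modules.pullback f).obj M) hV'
        (secMap f (𝟙 ((Scheme.Modules.pullback f).obj M)) V V' hle s) := by
  rw [toRestrTop_apply, toRestrTop_apply,
    ← secMap_compHom (Spec.map (f.appLE V V' hle)) hV.fromSpec (restrHom hV.fromSpec M)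
      (coreIso f M hV hV' hle).hom V ⊤ ⊤ (top_le_fromSpec_preimage hV) le_top s,
    ← secMap_compHom hV'.fromSpec f (𝟙 ((Scheme.Modules.pullback f).obj M))
      (restrHom hV'.fromSpec ((Scheme.Modules.pullback f).obj M)) V V' ⊤ hle
      (top_le_fromSpec_preimage hV') s]
  simp only [compHom_coreIso]
  exact secMap_congr (IsAffineOpen.SpecMap_appLE_fromSpec f hV hV' hle) _ V ⊤ _ s

/-- `fromSpec.appLE W ⊤` is the inverse of `ΓSpecIso`. -/
lemma fromSpec_appLE_top {Y : Scheme.{u}} {W : Y.Opens} (hW : IsAffineOpen W) :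
    hW.fromSpec.appLE W ⊤ (top_le_fromSpec_preimage hW) = (Scheme.ΓSpecIso Γ(Y, W)).inv := by
  rw [Scheme.Hom.appLE, hW.fromSpec_app_self, Category.assoc, ← Functor.map_comp]
  have : ((eqToHom hW.fromSpec_preimage_self).op ≫
      (homOfLE (top_le_fromSpec_preimage hW)).op) = 𝟙 (op (⊤ : (Spec Γ(Y, W)).Opens)) :=
    Subsingleton.elim _ _
  rw [this, CategoryTheory.Functor.map_id, Category.comp_id]

/-- Semilinearity of `toRestrTop` with respect to `ΓSpecIso`. -/
lemma toRestrTop_smul {Y : Scheme.{u}} (N : Y.Modules) {W : Y.Opens}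
    (hW : IsAffineOpen W) (r : Γ(Y, W)) (s : Γ(N, W)) :
    toRestrTop N hW (r • s) = ((Scheme.ΓSpecIso Γ(Y, W)).inv r) • toRestrTop N hW s := by
  have h1 : toRestrTop N hW (r • s) =
      Y.presheaf.map (homOfLE (fromSpec_image_top hW).le).op r •
        (show Γ(N, hW.fromSpec ''ᵁ ⊤) from toRestrTop N hW s) :=
    resS_smul N _ r s
  rw [h1]
  have h2 : ∀ (t : Γ(Spec Γ(Y, W), ⊤)) (y : Γ(N.restrict hW.fromSpec, ⊤)),
      t • y = (show Γ(N.restrict hW.fromSpec, ⊤) from
        ((hW.fromSpec.appIso ⊤).inv t) • (show Γ(N, hW.fromSpec ''ᵁ ⊤) from y)) :=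
    fun _ _ => rfl
  rw [h2]
  congr 1
  apply (ConcreteCategory.bijective_of_isIso (hW.fromSpec.appIso ⊤).hom).1
  have e1 : (hW.fromSpec.appIso ⊤).hom ((hW.fromSpec.appIso ⊤).inv
      ((Scheme.ΓSpecIso Γ(Y, W)).inv r)) = (Scheme.ΓSpecIso Γ(Y, W)).inv r := by
    rw [← ConcreteCategory.comp_apply, Iso.inv_hom_id]
    rfl
  have e2 : Y.presheaf.map (homOfLE (fromSpec_image_top hW).le).op ≫
      (hW.fromSpec.appIso ⊤).hom = (Scheme.ΓSpecIso Γ(Y, W)).inv := by
    rw [Scheme.Hom.appIso_hom', Scheme.Hom.map_appLE, ← fromSpec_appLE_top hW]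
  rw [e1, ← e2]
  rfl

/-- **BC-CORE**: for a quasi-coherent module `M` on `X`, a morphism `f : X' ⟶ X` and affine
opens `V' ≤ f⁻¹ V`, the canonical map `Γ(M, V) → Γ(f^* M, V')` is a semilinear base change
along `f.appLE V V'`. -/
theorem isSemiBC_secMap_unit [M.IsQuasicoherent] (hV : IsAffineOpen V)
    (hV' : IsAffineOpen V') :
    IsSemiBC (f.appLE V V' hle).hom
      (secMap f (𝟙 ((Scheme.Modules.pullback f).obj M)) V V' hle) := by
  have h0 := (isSemiBC_unitTop (f.appLE V V' hle) (M.restrict hV.fromSpec)).comp_linearEquiv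
    (appLinearEquiv (coreIso f M hV hV' hle) ⊤)
  have hb₁ : IsSemiBC ((Spec.map (f.appLE V V' hle)).appLE ⊤ ⊤ le_top).hom
      (secMap (Spec.map (f.appLE V V' hle)) (coreIso f M hV hV' hle).hom ⊤ ⊤ le_top) := by
    convert h0 using 1
    ext x
    have := secMap_comp (Spec.map (f.appLE V V' hle)) (𝟙 _) (coreIso f M hV hV' hle).hom
      ⊤ ⊤ le_top x
    rw [Category.id_comp] at this
    exact this
  refine IsSemiBC.transport hb₁
    (Scheme.ΓSpecIso Γ(X, V)).symm.commRingCatIsoToRingEquiv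
    (Scheme.ΓSpecIso Γ(X', V')).symm.commRingCatIsoToRingEquiv ?_
    (toRestrTop M hV) (toRestrTop ((Scheme.Modules.pullback f).obj M) hV')
    (fun r n => toRestrTop_smul M hV r n)
    (fun r n => toRestrTop_smul _ hV' r n)
    (fun s => (secMap_coreIso_square f M hV hV' hle s).symm)
  intro r
  change (Scheme.ΓSpecIso Γ(X', V')).inv ((f.appLE V V' hle) r) =
    (Spec.map (f.appLE V V' hle)).appLE ⊤ ⊤ le_top ((Scheme.ΓSpecIso Γ(X, V)).inv r)
  have h2 : (Spec.map (f.appLE V V' hle)).appLE ⊤ ⊤ le_top =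
      (Spec.map (f.appLE V V' hle)).appTop :=
    (Scheme.Hom.app_eq_appLE (f := Spec.map (f.appLE V V' hle)) (U := ⊤)).symm
  rw [h2]
  exact congr($(Scheme.ΓSpecIso_inv_naturality (f.appLE V V' hle)) r)

end Core

end Fermat.Agent.S25.H686
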